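import Fermat.Agent.Mazur.Eisenstein.Consequences

/-!
# Mazur's third step and the irreducibility of the Frey representation, from the three inputs

The shapes of statements S15, S12 and S09, given injectivity of reduction on torsion, the
Eisenstein descent and the injectivity of fixed torsion under reduction.
-/

set_option autoImplicit false
set_option linter.style.haveILetI false

noncomputable section

open ModularCurve
open scoped WeierstrassCurve.Affine

namespace Fermat.Agent.Mazur.Eisenstein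

local notation "Qb" => AlgebraicClosure ℚ
local notation "GalQ" => (AlgebraicClosure ℚ ≃ₐ[ℚ] AlgebraicClosure ℚ)

variable (hinj : ∀ (p : ℕ) [NeZero p], p.Prime → EichlerShimura.InjectiveOnTorsion p)
  (hdesc : ∀ (p : ℕ) [NeZero p], p.Prime → p ∉ ({2, 3, 5, 7, 13} : Finset ℕ) →
    DescentProperty p)
  (hfix : ∀ (p : ℕ) [NeZero p], p.Prime → p ∉ ({2, 3, 5, 7, 13} : Finset ℕ) →
    FixedTorsionProperty p)

include hinj hdesc hfix

/-- A rational point off the identity component at `2` and `3` is off it at every multiplicative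
place away from its order. -/
theorem not_inZeroComponentAt_of_inputs
    {p : ℕ} (hp : p.Prime) (hp' : p ∉ ({2, 3, 5, 7, 13} : Finset ℕ))
    (W : WeierstrassCurve ℤ) (hΔ : W.Δ ≠ 0)
    (Q : ((W.map (Int.castRingHom ℚ))⁄Qb).Point)
    (hQfix : ∀ σ : GalQ, σ • Q = Q) (hQord : addOrderOf Q = p)
    (h2Δ : (2 : ℤ) ∣ W.Δ) (h2c₄ : ¬ (2 : ℤ) ∣ W.c₄)
    (h2 : ∀ A : ValuationSubring Qb, A.LiesOverPrime 2 → ¬ W.InZeroComponentAt A Q)
    (h3Δ : (3 : ℤ) ∣ W.Δ) (h3c₄ : ¬ (3 : ℤ) ∣ W.c₄)
    (h3 : ∀ A : ValuationSubring Qb, A.LiesOverPrime 3 → ¬ W.InZeroComponentAt A Q)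
    {l : ℕ} (hl : l.Prime) (hlp : l ≠ p) (hlΔ : (l : ℤ) ∣ W.Δ) (hlc₄ : ¬ (l : ℤ) ∣ W.c₄)
    (A : ValuationSubring Qb) (hA : A.LiesOverPrime l) : ¬ W.InZeroComponentAt A Q := by
  haveI := Fact.mk hp
  exact component_eq_out hp' (hinj p hp) (hdesc p hp hp') (hfix p hp hp') W hΔ Q hQord
    (fun σ => ⟨1, by rw [hQfix, one_nsmul]⟩) h2Δ h2c₄ h3Δ h3c₄ hl hlp hlΔ hlc₄ h2 h3 A hA

open WeierstrassCurve.Affine.Point in
/-- The Frey curve has no stable cofixed line for large `p`. -/
theorem not_hasGaloisStableCofixedLine_frey (P : FreyPackage) (hp : 17 ≤ P.p) :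
    ¬ HasGaloisStableCofixedLine (K := Qb) ℚ P.freyCurve P.p :=
  Large.not_hasGaloisStableCofixedLine (threePlaceLemma hinj hdesc hfix) P hp

open WeierstrassCurve.Affine.Point in
/-- The Frey representation is irreducible. -/
theorem galoisRepIsIrreducible_frey_of_inputs (P : FreyPackage) :
    GaloisRepIsIrreducible (K := Qb) ℚ P.freyCurve P.p :=
  Large.galoisRepIsIrreducible_frey (threePlaceLemma hinj hdesc hfix) P

end Fermat.Agent.Mazur.Eisenstein
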